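/-
S17lib / CanDiff / Const  (helper9) — Project G, block DEG/SPEC, the CONSTANT PLACES.

Abstract setting of `P2loc` (helper8): `D : RedDatum A F Fk` (`F / L` upstairs, `Fk / k` downstairs,
`k` the residue field of `A`), rational places on both sides, and a ring homomorphism
`ι : Fk →+* F` (the constant extension) with `ι f ∈ O`, `red (ι f) = f` and
`deg (ι f)_∞ = deg (f)_∞` (`ConstLift`).  Then

* zeros / poles of `ι f` reduce to zeros / poles of `f` (`ord_r_pos`, `ord_r_neg`), hence
  `ord_Q (ι f) = 0` whenever `ord_{r Q} f = 0`;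
* `cst p` : the unique place on the residue disc of `p` at which `ι u_p` vanishes (`u_p` a
  uniformizer at `p`); `r (cst p) = p`, `cst` injective, **`ord_{cst p} (ι f) = ord_p f`**;
* **every place `Q` with `ord_Q (ι f) ≠ 0` for some `f` is constant** (`mem_range_cst`), and
  `cst p` is the only place `Q` with `ord_Q (ι f) = ord_p f` for all `f` (`eq_cst`);
* for ANY such datum: `ord_Q (ι f) = ord_p f` for all `f` forces `r Q = p` (`r_eq_of_ord_iota`).
-/
import Mathlib
import Fermat.Agent.S17lib.P2loc.Disc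

set_option autoImplicit false
set_option linter.unusedSectionVars false
set_option linter.style.haveILetI false

noncomputable section

namespace Fermat.Agent.S17lib.CanDiff

open AlgebraicCurve IsLocalRing
open Fermat.Agent.ProgramR Fermat.Agent.S18lib Fermat.Agent.S15lib.Weil Fermat.Agent.S17lib.P2loc

variable {L : Type*} [Field L] {A : ValuationSubring L}
variable {F : Type*} [Field F] [Algebra L F]
variable {Fk : Type*} [Field Fk] [Algebra (IsLocalRing.ResidueField A) Fk]
variable (D : RedDatum A F Fk)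
variable [HasPrincipalDivisors L F] [HasPrincipalDivisors (IsLocalRing.ResidueField A) Fk]
variable [RatPlaces L F] [RatPlaces (IsLocalRing.ResidueField A) Fk]

local notation "k" => IsLocalRing.ResidueField A

/-- `ι : Fk → F` is a constant lift for the reduction datum `D`. -/
structure ConstLift (ι : Fk →+* F) : Prop where
  mem_O : ∀ f, ι f ∈ D.O
  redF : ∀ f, D.redF (ι f) = f
  deg : ∀ f, Divisor.degree (polesOf (K := L) (ι f)) = Divisor.degree (polesOf (K := k) f)

namespace ConstLift

variable {D} {ι : Fk →+* F} (h : ConstLift D ι)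
include h

theorem degpos : ∀ Q' : Place k Fk, 0 < Q'.deg := fun Q' => by
  rw [RatPlaces.deg_eq_one Q']; exact one_pos

/-- zeros of `ι f` reduce to zeros of `f` -/
theorem ord_r_pos {f : Fk} {Q : Place L F} (hQ : 0 < Q.ord (ι f)) : 0 < (D.r Q).ord f := by
  have hf0 : f ≠ 0 := by
    rintro rfl
    rw [map_zero, Place.ord_zero] at hQ
    exact lt_irrefl _ hQ
  have hy : D.redF (ι f) ≠ 0 := by rw [h.redF]; exact hf0
  have hdeg : Divisor.degree (polesOf (K := L) (ι f)) =
      Divisor.degree (polesOf (K := k) (D.redF (ι f))) := by rw [h.redF]; exact h.deg f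
  have h1 := le_mapDomain_apply D.r (zerosOf_nonneg (K := L) (ι f)) Q
  rw [(D.mapDomain_polesOf_zerosOf h.degpos hy hdeg).2, zerosOf_apply, zerosOf_apply, h.redF,
    max_eq_left hQ.le] at h1
  by_contra hle
  rw [max_eq_right (not_lt.mp hle)] at h1
  omega

/-- poles of `ι f` reduce to poles of `f` -/
theorem ord_r_neg {f : Fk} {Q : Place L F} (hQ : Q.ord (ι f) < 0) : (D.r Q).ord f < 0 := by
  have hf0 : f ≠ 0 := by
    rintro rfl
    rw [map_zero, Place.ord_zero] at hQ
    exact lt_irrefl _ hQ
  have hy : D.redF (ι f) ≠ 0 := by rw [h.redF]; exact hf0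
  have hdeg : Divisor.degree (polesOf (K := L) (ι f)) =
      Divisor.degree (polesOf (K := k) (D.redF (ι f))) := by rw [h.redF]; exact h.deg f
  have := D.ord_r_neg_of_ord_neg h.degpos hy hdeg hQ
  rwa [h.redF] at this

/-- no zero or pole of `f` at `r Q` ⇒ no zero or pole of `ι f` at `Q` -/
theorem ord_iota_eq_zero {f : Fk} {Q : Place L F} (hQ : (D.r Q).ord f = 0) : Q.ord (ι f) = 0 := by
  rcases lt_trichotomy (Q.ord (ι f)) 0 with hlt | heq | hgt
  · have := h.ord_r_neg hlt; omega
  · exact heq
  · have := h.ord_r_pos hgt; omega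

/-- a uniformizer at `p` -/
theorem exists_uniformizer (p : Place k Fk) : ∃ u : Fk, p.ord u = 1 := by
  obtain ⟨π, hπ⟩ := IsDiscreteValuationRing.exists_irreducible p.toValuationSubring
  exact ⟨(π : Fk), p.ord_coe_irreducible hπ⟩

/-- the chosen uniformizer at `p` -/
def unif (p : Place k Fk) : Fk := (h.exists_uniformizer p).choose

theorem ord_unif (p : Place k Fk) : p.ord (h.unif p) = 1 := (h.exists_uniformizer p).choose_spec

/-- the coordinate chart `ι u_p` of the residue disc of `p` -/
def chart (p : Place k Fk) : DiscChart D p where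
  u := h.unif p
  U := ι (h.unif p)
  ord_u := h.ord_unif p
  U_mem := h.mem_O _
  red_U := h.redF _
  deg_U := h.deg _

/-- **the constant place over `p`** -/
def cst (p : Place k Fk) : Place L F :=
  ((h.chart p).exists_coord_eq (s := 0) (zero_mem _)).choose

theorem r_cst (p : Place k Fk) : D.r (h.cst p) = p :=
  ((h.chart p).exists_coord_eq (s := 0) (zero_mem _)).choose_spec.1

theorem coord_cst (p : Place k Fk) : (h.chart p).coord (h.cst p) = 0 :=
  ((h.chart p).exists_coord_eq (s := 0) (zero_mem _)).choose_spec.2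

theorem cst_injective : Function.Injective h.cst := fun p p' hpp' => by
  rw [← h.r_cst p, ← h.r_cst p', hpp']

theorem ord_cst_unif (p : Place k Fk) : (h.cst p).ord (ι (h.unif p)) = 1 := by
  classical
  have := (h.chart p).ord_sub_coord (h.r_cst p) (h.r_cst p)
  rw [if_pos rfl, h.coord_cst, map_zero, sub_zero] at this
  exact this

/-- decomposition `f = u_p ^ n * w` with `ord_p w = 0` -/
theorem exists_unit_part (p : Place k Fk) {f : Fk} (hf : f ≠ 0) :
    ∃ w : Fk, w ≠ 0 ∧ p.ord w = 0 ∧ f = h.unif p ^ (p.ord f) * w := by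
  have hu0 : h.unif p ≠ 0 := by
    intro h0
    have := h.ord_unif p
    rw [h0, Place.ord_zero] at this
    exact zero_ne_one this
  refine ⟨f * (h.unif p ^ (p.ord f))⁻¹, mul_ne_zero hf (inv_ne_zero (zpow_ne_zero _ hu0)), ?_, ?_⟩
  · rw [p.ord_mul hf (inv_ne_zero (zpow_ne_zero _ hu0)), p.ord_inv, p.ord_zpow, h.ord_unif]
    ring
  · field_simp

/-- on the disc of `p`, `ord_Q (ι f) = ord_p f * ord_Q (ι u_p)` -/
theorem ord_iota_eq_mul (p : Place k Fk) {Q : Place L F} (hQ : D.r Q = p) {f : Fk} (hf : f ≠ 0) :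
    Q.ord (ι f) = p.ord f * Q.ord (ι (h.unif p)) := by
  obtain ⟨w, hw0, hw, hfw⟩ := h.exists_unit_part p hf
  have hu0 : h.unif p ≠ 0 := by
    intro h0
    have := h.ord_unif p
    rw [h0, Place.ord_zero] at this
    exact zero_ne_one this
  have hιw : Q.ord (ι w) = 0 := h.ord_iota_eq_zero (by rw [hQ]; exact hw)
  conv_lhs => rw [hfw]
  rw [map_mul, map_zpow₀, Q.ord_mul (zpow_ne_zero _ ((map_ne_zero ι).mpr hu0))
    ((map_ne_zero ι).mpr hw0), Q.ord_zpow, hιw, add_zero]

/-- **`ord_{cst p} (ι f) = ord_p f`** -/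
theorem ord_cst_iota (p : Place k Fk) (f : Fk) : (h.cst p).ord (ι f) = p.ord f := by
  rcases eq_or_ne f 0 with rfl | hf
  · rw [map_zero, Place.ord_zero, Place.ord_zero]
  rw [h.ord_iota_eq_mul p (h.r_cst p) hf, h.ord_cst_unif, mul_one]

/-- a place at which some `ι f` has a zero is constant -/
theorem eq_cst_of_ord_pos {Q : Place L F} {f : Fk} (hQ : 0 < Q.ord (ι f)) :
    Q = h.cst (D.r Q) := by
  set p := D.r Q with hp
  have hf0 : f ≠ 0 := by
    rintro rfl
    rw [map_zero, Place.ord_zero] at hQ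
    exact lt_irrefl _ hQ
  have hpf : 0 < p.ord f := h.ord_r_pos hQ
  have hmul := h.ord_iota_eq_mul p hp.symm hf0
  have hupos : 0 < Q.ord (ι (h.unif p)) := by
    by_contra hle
    rw [not_lt] at hle
    have : p.ord f * Q.ord (ι (h.unif p)) ≤ 0 := mul_nonpos_of_nonneg_of_nonpos hpf.le hle
    omega
  have hcoord : (h.chart p).coord Q = 0 := val_eq_zero_of_ord_pos Q hupos
  exact (h.chart p).coord_injective hp.symm (h.r_cst p) (by rw [hcoord, h.coord_cst])

/-- **every place at which some `ι f` has a zero or a pole is constant** -/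
theorem mem_range_cst {Q : Place L F} {f : Fk} (hQ : Q.ord (ι f) ≠ 0) : Q ∈ Set.range h.cst := by
  rcases lt_or_gt_of_ne hQ with hlt | hgt
  · have : 0 < Q.ord (ι f⁻¹) := by rw [map_inv₀, Q.ord_inv]; omega
    exact ⟨_, (h.eq_cst_of_ord_pos this).symm⟩
  · exact ⟨_, (h.eq_cst_of_ord_pos hgt).symm⟩

/-- at a non-constant place all `ι f` are units -/
theorem ord_iota_of_notMem_range {Q : Place L F} (hQ : Q ∉ Set.range h.cst) (f : Fk) :
    Q.ord (ι f) = 0 := by
  by_contra hne
  exact hQ (h.mem_range_cst hne)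

/-- for ANY constant lift: a place with the orders of `p` on `ι Fk` reduces to `p` -/
theorem r_eq_of_ord_iota {Q : Place L F} {p : Place k Fk} (hQ : ∀ f, Q.ord (ι f) = p.ord f) :
    D.r Q = p := by
  have h1 : 0 < (D.r Q).ord (h.unif p) := h.ord_r_pos (by rw [hQ, h.ord_unif]; exact one_pos)
  have h2 : Q = h.cst (D.r Q) := h.eq_cst_of_ord_pos (f := h.unif p) (by
    rw [hQ, h.ord_unif]; exact one_pos)
  -- compare the orders of a uniformizer of `r Q` at `p`
  by_contra hne
  -- a function with a zero at `r Q` and none at `p` would contradict `hQ`; use `ord_cst_iota`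
  have h3 : ∀ f, (D.r Q).ord f = p.ord f := fun f => by
    rw [← hQ f]
    conv_rhs => rw [h2]
    rw [h.ord_cst_iota]
  apply hne
  apply Place.ext
  ext f
  rw [FF.mem_iff_ord_nonneg, FF.mem_iff_ord_nonneg, h3]

/-- `cst p` is the only place with the orders of `p` on `ι Fk` -/
theorem eq_cst {Q : Place L F} {p : Place k Fk} (hQ : ∀ f, Q.ord (ι f) = p.ord f) :
    Q = h.cst p := by
  have h2 : Q = h.cst (D.r Q) := h.eq_cst_of_ord_pos (f := h.unif p) (by
    rw [hQ, h.ord_unif]; exact one_pos)
  rw [h2, h.r_eq_of_ord_iota hQ]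

/-! ### values at non-constant places -/

/-- `ι f` is regular on the whole residue disc of a place where `f` is regular -/
theorem ord_iota_nonneg_of_disc {f : Fk} {p : Place k Fk} (hp : 0 ≤ p.ord f) {P : Place L F}
    (hP : D.r P = p) : 0 ≤ P.ord (ι f) := by
  by_contra hneg
  rw [not_le] at hneg
  have := h.ord_r_neg hneg
  rw [hP] at this
  omega

/-- (d2), regular case: the value of `ι f` lies in `A` -/
theorem val_iota_mem {f : Fk} {Q : Place L F} (hf : 0 ≤ (D.r Q).ord f) : val Q (ι f) ∈ A :=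
  val_mem D (h.mem_O f) (D.r Q) (fun _ hP => h.ord_iota_nonneg_of_disc hf hP) rfl

/-- (d2), regular case: the residue of the value of `ι f` is the value of `f` -/
theorem residue_val_iota {f : Fk} {Q : Place L F} (hf : 0 ≤ (D.r Q).ord f) :
    residue A ⟨val Q (ι f), h.val_iota_mem hf⟩ = val (D.r Q) f := by
  have := residue_val D (h.mem_O f) (D.r Q) (fun _ hP => h.ord_iota_nonneg_of_disc hf hP)
    (P := Q) rfl
  rw [h.redF] at this
  exact this

/-- zero case: the value of `ι f` lies in `𝔪_A` -/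
theorem val_iota_mem_maximalIdeal {f : Fk} {Q : Place L F} (hf : 0 < (D.r Q).ord f) :
    (⟨val Q (ι f), h.val_iota_mem hf.le⟩ : A) ∈ maximalIdeal A := by
  rw [← residue_eq_zero_iff, h.residue_val_iota hf.le, val_eq_zero_of_ord_pos _ hf]

/-- at a NON-constant place `Q`: `f` vanishes at `r Q` iff the value `(ι f)(Q)` lies in `𝔪_A` -/
theorem ord_r_pos_iff_val {Q : Place L F} (hQ : ∀ f : Fk, 0 ≤ Q.ord (ι f)) {f : Fk} (hf : f ≠ 0) :
    0 < (D.r Q).ord f ↔
      ∃ hmem : val Q (ι f) ∈ A, (⟨val Q (ι f), hmem⟩ : A) ∈ maximalIdeal A := by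
  constructor
  · intro hpos
    exact ⟨h.val_iota_mem hpos.le, h.val_iota_mem_maximalIdeal hpos⟩
  · rintro ⟨hmem, hmax⟩
    by_contra hle
    rw [not_lt] at hle
    rcases hle.lt_or_eq with hlt | heq
    · -- pole: the value of `ι f⁻¹` lies in `𝔪_A`, and the two values multiply to `1`
      have hinv : 0 < (D.r Q).ord f⁻¹ := by rw [Place.ord_inv]; omega
      have h1 := h.val_iota_mem_maximalIdeal hinv
      have hmul : val Q (ι f) * val Q (ι f⁻¹) = 1 := by
        rw [← val_mul Q (FF.mem_of_ord_nonneg Q (hQ f)) (FF.mem_of_ord_nonneg Q (hQ f⁻¹)),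
          ← map_mul, mul_inv_cancel₀ hf, map_one, val_one]
      have h2 : (⟨val Q (ι f), hmem⟩ : A) * ⟨val Q (ι f⁻¹), h.val_iota_mem hinv.le⟩ = 1 :=
        Subtype.ext hmul
      have h3 := Ideal.mul_mem_left (maximalIdeal A) (⟨val Q (ι f), hmem⟩ : A) h1
      rw [h2] at h3
      exact (Ideal.ne_top_iff_one _).mp (IsLocalRing.maximalIdeal.isMaximal A).ne_top h3
    · -- unit: the residue of the value is `f(r Q) ≠ 0`
      have h1 := h.residue_val_iota (Q := Q) (f := f) heq.ge
      have h2 : val (D.r Q) f ≠ 0 := val_ne_zero _ hf heq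
      apply h2
      rw [← h1]
      exact (residue_eq_zero_iff _).mpr hmax

/-- **non-constant places are determined by their values on `ι Fk`** -/
theorem eq_of_val_iota_eq {Q Q' : Place L F} (hQ : ∀ f : Fk, 0 ≤ Q.ord (ι f))
    (hQ' : ∀ f : Fk, 0 ≤ Q'.ord (ι f)) (hval : ∀ f : Fk, val Q (ι f) = val Q' (ι f)) :
    Q = Q' := by
  -- the two places lie on the same residue disc
  have hpos : ∀ f : Fk, 0 < (D.r Q).ord f ↔ 0 < (D.r Q').ord f := by
    intro f
    rcases eq_or_ne f 0 with rfl | hf
    · simp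
    rw [h.ord_r_pos_iff_val hQ hf, h.ord_r_pos_iff_val hQ' hf]
    simp only [hval f]
  have hr : D.r Q = D.r Q' := by
    apply Place.ext
    ext f
    rw [FF.mem_iff_ord_nonneg, FF.mem_iff_ord_nonneg]
    have h1 := hpos f⁻¹
    rw [Place.ord_inv, Place.ord_inv] at h1
    constructor
    · intro hf
      by_contra hcon
      have : 0 < -(D.r Q').ord f := by omega
      have := h1.mpr this
      omega
    · intro hf
      by_contra hcon
      have : 0 < -(D.r Q).ord f := by omega
      have := h1.mp this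
      omega
  exact (h.chart (D.r Q)).coord_injective rfl hr.symm (hval _)

end ConstLift

end Fermat.Agent.S17lib.CanDiff
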