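/-
S17lib / CanDiff / Emb  (helper9) — Project G: the converse dictionary.

`ι : Fk →ₐ[k] FΩ` (constant extension, `k ⊂ Ω`), `Q` a place of `FΩ / Ω` (all places rational) at
which every `ι f` is regular (a NON-constant point: e.g. `Q ∉ range cstK`).  Then
`σ_Q : Fk →ₐ[k] Ω`, `f ↦ (ι f)(Q)`, is a `k`-embedding and `Q` has the value `σ_Q f` at `ι f`
(`hasValueAt_embOfPlace`, the `gen σ` half of helper6's `Realizes`).
-/
import Mathlib
import Fermat.Agent.S15lib.Weil.Eval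

set_option autoImplicit false
set_option linter.unusedSectionVars false

noncomputable section

namespace Fermat.Agent.S17lib.CanDiff

open AlgebraicCurve
open Fermat.Agent.ProgramR Fermat.Agent.S15lib.Weil

variable {k Ω Fk FΩ : Type*} [Field k] [Field Ω] [Field Fk] [Field FΩ]
  [Algebra k Ω] [Algebra k Fk] [Algebra Ω FΩ] [Algebra k FΩ] [IsScalarTower k Ω FΩ]
  [RatPlaces Ω FΩ]

/-- the `k`-embedding `f ↦ (ι f)(Q)` defined by a place `Q` at which all `ι f` are regular -/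
def embOfPlace (ι : Fk →ₐ[k] FΩ) (Q : Place Ω FΩ) (hQ : ∀ f : Fk, 0 ≤ Q.ord (ι f)) :
    Fk →ₐ[k] Ω where
  toFun f := val Q (ι f)
  map_one' := by rw [map_one, val_one]
  map_mul' f g := by
    rw [map_mul, val_mul Q (FF.mem_of_ord_nonneg Q (hQ f)) (FF.mem_of_ord_nonneg Q (hQ g))]
  map_zero' := by rw [map_zero, val_zero]
  map_add' f g := by
    rw [map_add, val_add Q (FF.mem_of_ord_nonneg Q (hQ f)) (FF.mem_of_ord_nonneg Q (hQ g))]
  commutes' c := by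
    rw [ι.commutes, IsScalarTower.algebraMap_apply k Ω FΩ, val_algebraMap]

@[simp]
theorem embOfPlace_apply (ι : Fk →ₐ[k] FΩ) (Q : Place Ω FΩ) (hQ : ∀ f : Fk, 0 ≤ Q.ord (ι f))
    (f : Fk) : embOfPlace ι Q hQ f = val Q (ι f) := rfl

/-- `Q` has the value `σ_Q f` at `ι f` -/
theorem hasValueAt_embOfPlace (ι : Fk →ₐ[k] FΩ) (Q : Place Ω FΩ)
    (hQ : ∀ f : Fk, 0 ≤ Q.ord (ι f)) (f : Fk) :
    ι f = algebraMap Ω FΩ (embOfPlace ι Q hQ f) ∨
      0 < Q.ord (ι f - algebraMap Ω FΩ (embOfPlace ι Q hQ f)) :=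
  (val_eq_iff Q (FF.mem_of_ord_nonneg Q (hQ f)) _).mp rfl

/-- a place with prescribed values on `ι Fk` defines that embedding -/
theorem embOfPlace_eq (ι : Fk →ₐ[k] FΩ) (Q : Place Ω FΩ) (hQ : ∀ f : Fk, 0 ≤ Q.ord (ι f))
    (σ : Fk →ₐ[k] Ω)
    (hσ : ∀ f, ι f = algebraMap Ω FΩ (σ f) ∨ 0 < Q.ord (ι f - algebraMap Ω FΩ (σ f))) :
    embOfPlace ι Q hQ = σ :=
  AlgHom.ext fun f => (val_eq_iff Q (FF.mem_of_ord_nonneg Q (hQ f)) _).mpr (hσ f)

/-- at a place with values on all of `ι Fk`, every `ι f` is regular (and a unit for `f ≠ 0`) -/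
theorem ord_iota_eq_zero_of_hasValueAt (ι : Fk →ₐ[k] FΩ) (Q : Place Ω FΩ) (σ : Fk →ₐ[k] Ω)
    (hσ : ∀ f, ι f = algebraMap Ω FΩ (σ f) ∨ 0 < Q.ord (ι f - algebraMap Ω FΩ (σ f)))
    (f : Fk) : Q.ord (ι f) = 0 := by
  have hreg : ∀ f : Fk, 0 ≤ Q.ord (ι f) := by
    intro f
    apply FF.ord_nonneg_of_mem
    rcases hσ f with h | h
    · rw [h]; exact Q.algebraMap_mem' _
    · have h1 := FF.mem_of_ord_nonneg Q h.le
      have h2 := add_mem h1 (Q.algebraMap_mem' (σ f))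
      rwa [sub_add_cancel] at h2
  rcases eq_or_ne f 0 with rfl | hf
  · rw [map_zero, Place.ord_zero]
  have h1 := hreg f
  have h2 := hreg f⁻¹
  rw [map_inv₀, Q.ord_inv] at h2
  omega

end Fermat.Agent.S17lib.CanDiff
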