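/-
S17lib / CanDiff / ConstK  (helper9) — Project G: the constant places in helper4's CCR setting.

`k ⊂ Ω`, `ι : Fk →ₐ[k] FΩ` a constant field extension, `A ⊂ Ω` a valuation ring over `k` with
residue field `k`, `D : RedDatum A FΩ Fk` extending the Gauss datum.  Then `ι` is a `ConstLift`
(`Const.lean`), and

* `cstK p : Place Ω FΩ` for `p : Place k Fk`, injective, **`(cstK p).ord (ι f) = p.ord f`**,
  `specPlace (cstK p) = p`;
* `Q ∉ range cstK → Q.ord (ι f) = 0` for all `f`;
* `cstK p` is the only place with the orders of `p` on `ι Fk`, and for ANY datum `(A', D')`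
  a place `Q` with `Q.ord (ι f) = p.ord f` for all `f` has `specPlace Q = p`.
-/
import Mathlib
import Fermat.Agent.S17lib.CanDiff.Const
import Fermat.Agent.S17lib.CanDiff.Emb
import Fermat.Agent.S17lib.CCR.Api

set_option autoImplicit false
set_option linter.unusedSectionVars false
set_option linter.style.haveILetI false

noncomputable section

namespace Fermat.Agent.S17lib.CanDiff

open AlgebraicCurve IntermediateField
open Fermat.Agent.ProgramR Fermat.Agent.S18lib Fermat.Agent.S15lib.Weil Fermat.Agent.S17lib.CCR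

variable {k Ω Fk FΩ : Type*} [Field k] [Field Ω] [Field Fk] [Field FΩ]
  [Algebra k Ω] [Algebra k Fk] [Algebra Ω FΩ] [Algebra k FΩ] [IsScalarTower k Ω FΩ]
  {ι : Fk →ₐ[k] FΩ}

/-- **no cancellation, for every `f ∈ Fk`** (constants included) -/
theorem degree_polesOf_iota_all [CharZero k] [IsAlgClosed k] [IsAlgClosed Ω]
    [HasPrincipalDivisors Ω FΩ] [HasPrincipalDivisors k Fk] (h : ConstExt Ω ι) (y₀ : Fk)
    [FiniteDimensional k⟮y₀⟯ Fk] (f : Fk) :
    Divisor.degree (polesOf (K := Ω) (ι f)) = Divisor.degree (polesOf (K := k) f) := by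
  by_cases hf : Transcendental k f
  · haveI : FiniteDimensional k⟮f⟯ Fk := FF.finiteDimensional_adjoin_of_transcendental y₀ hf
    exact h.degree_polesOf_iota hf
  · rw [Transcendental, not_not] at hf
    obtain ⟨c, rfl⟩ := FF.exists_algebraMap_eq_of_isAlgebraic hf
    have h1 : polesOf (K := k) (algebraMap k Fk c) = 0 := by
      ext P
      rw [polesOf_apply, Finsupp.zero_apply, Cech.ord_const]
      simp
    have h2 : polesOf (K := Ω) (ι (algebraMap k Fk c)) = 0 := by
      ext P
      rw [polesOf_apply, Finsupp.zero_apply, ι.commutes, IsScalarTower.algebraMap_apply k Ω FΩ,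
        Cech.ord_const]
      simp
    rw [h1, h2, map_zero, map_zero]

variable {A : ValuationSubring Ω} [Algebra k A] [IsScalarTower k A Ω]
  [Algebra (IsLocalRing.ResidueField A) Fk] [IsScalarTower k (IsLocalRing.ResidueField A) Fk]

variable [HasPrincipalDivisors Ω FΩ] [HasPrincipalDivisors k Fk]
  [HasPrincipalDivisors (IsLocalRing.ResidueField A) Fk]
  [RatPlaces Ω FΩ] [RatPlaces (IsLocalRing.ResidueField A) Fk]

variable (hc : ConstData A ι) {D : RedDatum A FΩ Fk} (hD : D.toGaussDatum = gaussDatum hc)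
  (hdeg : ∀ f : Fk, Divisor.degree (polesOf (K := Ω) (ι f)) = Divisor.degree (polesOf (K := k) f))

include hD hdeg in
/-- `ι` is a constant lift for `D` -/
theorem constLift : ConstLift D (ι : Fk →+* FΩ) where
  mem_O := fun f => iota_mem_O hD f
  redF := fun f => redF_iota hD f
  deg := fun f => by rw [degree_polesOf_res hc]; exact hdeg f

/-- **the constant place over `p : Place k Fk`** -/
def cstK (p : Place k Fk) : Place Ω FΩ := (constLift hc hD hdeg).cst (resPlaceEquiv hc p)

theorem ord_cstK_iota (p : Place k Fk) (f : Fk) : (cstK hc hD hdeg p).ord (ι f) = p.ord f := by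
  rw [cstK]
  exact ((constLift hc hD hdeg).ord_cst_iota _ f).trans (ord_resPlaceEquiv hc p f)

theorem r_cstK (p : Place k Fk) : D.r (cstK hc hD hdeg p) = resPlaceEquiv hc p :=
  (constLift hc hD hdeg).r_cst _

theorem specPlace_cstK (p : Place k Fk) : specPlace hc D (cstK hc hD hdeg p) = p := by
  rw [specPlace, r_cstK, Equiv.symm_apply_apply]

theorem cstK_injective : Function.Injective (cstK hc hD hdeg) := fun p p' h => by
  rw [← specPlace_cstK hc hD hdeg p, ← specPlace_cstK hc hD hdeg p', h]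

theorem range_cstK : Set.range (cstK hc hD hdeg) = Set.range (constLift hc hD hdeg).cst := by
  ext Q
  constructor
  · rintro ⟨p, rfl⟩; exact ⟨_, rfl⟩
  · rintro ⟨p, rfl⟩
    exact ⟨(resPlaceEquiv hc).symm p, by rw [cstK, Equiv.apply_symm_apply]⟩

/-- at a non-constant place all `ι f` are units -/
theorem ord_iota_of_notMem_range_cstK {Q : Place Ω FΩ} (hQ : Q ∉ Set.range (cstK hc hD hdeg))
    (f : Fk) : Q.ord (ι f) = 0 :=
  (constLift hc hD hdeg).ord_iota_of_notMem_range (by rwa [← range_cstK]) f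

/-- a place at which some `ι f` has a zero or a pole is constant -/
theorem mem_range_cstK {Q : Place Ω FΩ} {f : Fk} (hQ : Q.ord (ι f) ≠ 0) :
    Q ∈ Set.range (cstK hc hD hdeg) := by
  rw [range_cstK]
  exact (constLift hc hD hdeg).mem_range_cst hQ

include hD hdeg in
/-- for ANY datum: a place with the orders of `p` on `ι Fk` specialises to `p` -/
theorem specPlace_eq_of_ord_iota {Q : Place Ω FΩ} {p : Place k Fk}
    (hQ : ∀ f, Q.ord (ι f) = p.ord f) : specPlace hc D Q = p := by
  have := (constLift hc hD hdeg).r_eq_of_ord_iota (Q := Q) (p := resPlaceEquiv hc p)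
    (fun f => by rw [ord_resPlaceEquiv]; exact hQ f)
  rw [specPlace, this, Equiv.symm_apply_apply]

/-- `cstK p` is the only place with the orders of `p` on `ι Fk` -/
theorem eq_cstK {Q : Place Ω FΩ} {p : Place k Fk} (hQ : ∀ f, Q.ord (ι f) = p.ord f) :
    Q = cstK hc hD hdeg p :=
  (constLift hc hD hdeg).eq_cst (p := resPlaceEquiv hc p)
    (fun f => by rw [ord_resPlaceEquiv]; exact hQ f)

include hc hD hdeg in
/-- **non-constant places of `FΩ` are determined by their values on `ι Fk`** -/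
theorem eq_of_val_iota_eq {Q Q' : Place Ω FΩ} (hQ : ∀ f : Fk, 0 ≤ Q.ord (ι f))
    (hQ' : ∀ f : Fk, 0 ≤ Q'.ord (ι f)) (hval : ∀ f : Fk, val Q (ι f) = val Q' (ι f)) : Q = Q' :=
  (constLift hc hD hdeg).eq_of_val_iota_eq (ι := (ι : Fk →+* FΩ)) hQ hQ' hval

include hc hD hdeg in
/-- **`Q ↦ σ_Q` is injective on the non-constant places** -/
theorem embOfPlace_injective {Q Q' : Place Ω FΩ} (hQ : ∀ f : Fk, 0 ≤ Q.ord (ι f))
    (hQ' : ∀ f : Fk, 0 ≤ Q'.ord (ι f)) (h : embOfPlace ι Q hQ = embOfPlace ι Q' hQ') : Q = Q' :=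
  eq_of_val_iota_eq hc hD hdeg hQ hQ' fun f => by
    have := DFunLike.congr_fun h f
    simpa using this

/-- the embedding of a non-constant place (`Q ∉ range cstK`) -/
def embOfNonConst {Q : Place Ω FΩ} (hQ : Q ∉ Set.range (cstK hc hD hdeg)) : Fk →ₐ[k] Ω :=
  embOfPlace ι Q fun f => (ord_iota_of_notMem_range_cstK hc hD hdeg hQ f).ge

theorem hasValueAt_embOfNonConst {Q : Place Ω FΩ} (hQ : Q ∉ Set.range (cstK hc hD hdeg))
    (f : Fk) : ι f = algebraMap Ω FΩ (embOfNonConst hc hD hdeg hQ f) ∨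
      0 < Q.ord (ι f - algebraMap Ω FΩ (embOfNonConst hc hD hdeg hQ f)) :=
  hasValueAt_embOfPlace ι Q _ f

theorem embOfNonConst_injective {Q Q' : Place Ω FΩ} (hQ : Q ∉ Set.range (cstK hc hD hdeg))
    (hQ' : Q' ∉ Set.range (cstK hc hD hdeg))
    (h : embOfNonConst hc hD hdeg hQ = embOfNonConst hc hD hdeg hQ') : Q = Q' :=
  embOfPlace_injective hc hD hdeg _ _ h

/-- a place with values on all of `ι Fk` is not constant -/
theorem notMem_range_cstK_of_hasValueAt {Q : Place Ω FΩ} (σ : Fk →ₐ[k] Ω)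
    (hσ : ∀ f, ι f = algebraMap Ω FΩ (σ f) ∨ 0 < Q.ord (ι f - algebraMap Ω FΩ (σ f))) :
    Q ∉ Set.range (cstK hc hD hdeg) := by
  rintro ⟨p, rfl⟩
  obtain ⟨u, hu⟩ := (constLift hc hD hdeg).exists_uniformizer (resPlaceEquiv hc p)
  have h1 := ord_iota_eq_zero_of_hasValueAt ι _ σ hσ u
  rw [ord_cstK_iota, ← ord_resPlaceEquiv hc, hu] at h1
  exact one_ne_zero h1

end Fermat.Agent.S17lib.CanDiff
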