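/-
S17lib / CanDiff / Canonical  (helper9) — Project G, input (CAN-DIFF) of (P4).

**A canonical divisor.**  `F / K` a function field over an algebraically closed field of
characteristic `0`, `x : F` transcendental with `F / K(x)` finite.  The divisor of the
differential `dx`,
`W = ∑_{P finite} (e_P - 1) P + ∑_{P pole of x} (ord_P x - 1) P`,
satisfies `deg W = 2 g - 2` (Riemann–Hurwitz) and `ℓ(W) = g`
(`L(W) = Ω(0)` = the space of `h` with `h dx` holomorphic, of dimension `g` by definition of the
genus of `RRgen`), where `g` is the genus of any `IsCurveOfGenus K F g`.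
-/
import Mathlib
import Fermat.Agent.S18lib.RRgen.Canonical
import Fermat.Agent.S27lib.U.Branch
import Fermat.Agent.ProgramR.Alg.ThmA

set_option autoImplicit false
set_option linter.unusedSectionVars false
set_option linter.style.haveILetI false

noncomputable section

namespace Fermat.Agent.S17lib.CanDiff

open Module Polynomial IsDedekindDomain AlgebraicCurve IntermediateField WithZero nonZeroDivisors
open Fermat.Agent.ProgramR Fermat.Agent.ProgramR.RR
open Fermat.Agent.S18lib Fermat.Agent.S18lib.RRgen Fermat.Agent.S18lib.RRgen.Canonical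

section Charts

variable (K : Type*) [Field K] [IsAlgClosed K] [CharZero K]
  (F : Type*) [Field F] [Algebra (RatFunc K) F] [FiniteDimensional (RatFunc K) F]
  [Algebra.IsSeparable (RatFunc K) F] [Algebra K F] [IsScalarTower K (RatFunc K) F]
  (B : Type*) [CommRing B] [IsDedekindDomain B] [Algebra K[X] B] [Module.Finite K[X] B]
  [IsTorsionFree K[X] B] [Algebra B F] [IsFractionRing B F] [Algebra K[X] F]
  [IsScalarTower K[X] (RatFunc K) F] [IsScalarTower K[X] B F]
  [Algebra K B] [IsScalarTower K B F]
  (Binf : Type*) [CommRing Binf] [IsDedekindDomain Binf] [Algebra (Ainf K) Binf]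
  [Module.Finite (Ainf K) Binf] [IsTorsionFree (Ainf K) Binf] [Algebra Binf F]
  [IsFractionRing Binf F] [Algebra (Ainf K) F] [IsScalarTower (Ainf K) (RatFunc K) F]
  [IsScalarTower (Ainf K) Binf F]
  [Algebra K Binf] [IsScalarTower K Binf F]

theorem latt_uE_zero : Latt (Apoly K) (uE K F B 0) = Set.range (algebraMap B F) := by
  ext y
  rw [uE_spec, IFin_zero]
  simp only [SetLike.mem_coe, FractionalIdeal.mem_coe, FractionalIdeal.mem_one_iff, Set.mem_range]

theorem latt_vE_zero : Latt (Ainf K) (vE K F Binf 0) = Set.range (algebraMap Binf F) := by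
  ext y
  rw [vE_spec, IInf_zero]
  simp only [SetLike.mem_coe, FractionalIdeal.mem_coe, FractionalIdeal.mem_one_iff, Set.mem_range]

/-- `Ω(0)` is cut out by the two local conditions of Theorem A. -/
theorem mem_Omega_zero_iff (h : F) :
    h ∈ Omega K F B Binf 0 ↔ Alg.FinCond K F B h ∧ Alg.InfCond K F Binf h := by
  have hu' := latt_uE_zero K F B
  have hv' := latt_vE_zero K F Binf
  by_cases hh : h = 0
  · subst hh
    refine ⟨fun _ => ⟨fun P c _ => by simp, fun P => by simp⟩, fun _ => Submodule.zero_mem _⟩
  rw [Omega, mem_differentialSubspace, ← Alg.mem_traceDual_iff_finCond K F B hh,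
    ← Alg.smul_mem_traceDual_iff_infCond K F Binf hh]
  refine and_congr ?_ ?_
  · rw [Submodule.mem_traceDual]
    constructor
    · intro H a ha
      rw [Submodule.mem_one] at ha
      obtain ⟨y, rfl⟩ := ha
      rw [Algebra.traceForm_apply]
      exact H _ (hu' ▸ ⟨y, rfl⟩)
    · intro H x hx
      rw [hu'] at hx
      obtain ⟨y, rfl⟩ := hx
      have := H (algebraMap B F y) (Submodule.mem_one.mpr ⟨y, rfl⟩)
      rwa [Algebra.traceForm_apply] at this
  · rw [Submodule.mem_traceDual]
    have e : ∀ x : F, Algebra.trace (RatFunc K) F (((RatFunc.X : RatFunc K) ^ 2 • h) * x) =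
        (RatFunc.X : RatFunc K) ^ 2 * Algebra.trace (RatFunc K) F (h * x) := by
      intro x
      rw [smul_mul_assoc, map_smul, smul_eq_mul]
    constructor
    · intro H a ha
      rw [Submodule.mem_one] at ha
      obtain ⟨y, rfl⟩ := ha
      rw [Algebra.traceForm_apply, e, Alg.range_algebraMap_Ainf]
      exact H _ (hv' ▸ ⟨y, rfl⟩)
    · intro H x hx
      rw [hv'] at hx
      obtain ⟨y, rfl⟩ := hx
      have := H (algebraMap Binf F y) (Submodule.mem_one.mpr ⟨y, rfl⟩)
      rwa [Algebra.traceForm_apply, e, Alg.range_algebraMap_Ainf] at this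

/-- valuation `< 1` in terms of the order at the corresponding place (finite chart) -/
theorem valuation_lt_one_iff_ord_fin (P : HeightOneSpectrum B) {f : F} (hf : f ≠ 0) :
    P.valuation F f < 1 ↔ 0 < (placeFin K F B P).ord f := by
  rw [ord_placeFin]
  have h0 : P.valuation F f ≠ 0 := (Valuation.ne_zero_iff _).mpr hf
  rw [← log_lt_log h0 one_ne_zero, log_one]
  omega

/-- valuation `< 1` in terms of the order at the corresponding place (chart at infinity) -/
theorem valuation_lt_one_iff_ord_inf (P : HeightOneSpectrum Binf) {f : F} (hf : f ≠ 0) :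
    P.valuation F f < 1 ↔ 0 < (placeInf K F Binf P).ord f := by
  rw [ord_placeInf]
  have h0 : P.valuation F f ≠ 0 := (Valuation.ne_zero_iff _).mpr hf
  rw [← log_lt_log h0 one_ne_zero, log_one]
  omega

theorem xF_sub_ne_zero (c : K) : RRgen.xF K F - algebraMap K F c ≠ 0 := by
  intro h
  have h1 : algebraMap (RatFunc K) F (RatFunc.X - RatFunc.C c) = 0 := by
    rw [map_sub, ← h, RRgen.xF, IsScalarTower.algebraMap_apply K (RatFunc K) F]
    rfl
  rw [map_eq_zero_iff _ (algebraMap (RatFunc K) F).injective] at h1
  have h2 : algebraMap K[X] (RatFunc K) (X - C c) = 0 := by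
    rw [map_sub, RatFunc.algebraMap_X, RatFunc.algebraMap_C]
    exact h1
  rw [map_eq_zero_iff _ (RatFunc.algebraMap_injective K)] at h2
  exact X_sub_C_ne_zero c h2

/-- a prime of the finite chart lies over some `x = c`. -/
theorem exists_ord_pos_placeFin (P : HeightOneSpectrum B) :
    ∃ c : K, algebraMap K[X] B (X - C c) ∈ P.asIdeal ∧
      0 < (placeFin K F B P).ord (RRgen.xF K F - algebraMap K F c) := by
  have hp0 : P.asIdeal.under K[X] ≠ ⊥ := mt Ideal.eq_bot_of_comap_eq_bot P.ne_bot
  have : (P.asIdeal.under K[X]).IsMaximal := Ideal.IsPrime.isMaximal inferInstance hp0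
  obtain ⟨c, hc⟩ := Alg.exists_eq_span_X_sub_C (P.asIdeal.under K[X]) hp0
  have hmem : algebraMap K[X] B (X - C c) ∈ P.asIdeal := by
    have : X - C c ∈ P.asIdeal.under K[X] := by
      rw [hc]; exact Ideal.mem_span_singleton_self _
    exact this
  refine ⟨c, hmem, ?_⟩
  have h1 : algebraMap B F (algebraMap K[X] B (X - C c)) = RRgen.xF K F - algebraMap K F c :=
    Alg.algebraMap_X_sub_C K F B c
  rw [← valuation_lt_one_iff_ord_fin K F B P (xF_sub_ne_zero K F c), ← h1,
    HeightOneSpectrum.valuation_lt_one_iff_mem]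
  exact hmem

/-- **`L(W) = Ω(0)`** for every divisor `W` with the coefficients of `div(dx)`. -/
theorem riemannRochSpace_eq_Omega_zero (W : Divisor K F)
    (hfin : ∀ (P : Place K F) (c : K), 0 < P.ord (RRgen.xF K F - algebraMap K F c) →
      W P = P.ord (RRgen.xF K F - algebraMap K F c) - 1)
    (hinf : ∀ P : Place K F, P.ord (RRgen.xF K F) < 0 → W P = P.ord (RRgen.xF K F) - 1) :
    riemannRochSpace W = Omega K F B Binf 0 := by
  ext h
  by_cases hh : h = 0
  · subst hh
    simp only [Submodule.zero_mem]
  have hx0 : RRgen.xF K F ≠ 0 := xF_ne_zero K F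
  rw [mem_Omega_zero_iff, mem_riemannRochSpace_iff]
  constructor
  · intro H
    have H' : ∀ v : Place K F, -W v ≤ v.ord h := fun v => (H v).resolve_left hh
    refine ⟨fun P c hc => ?_, fun P => ?_⟩
    · have hc0 := xF_sub_ne_zero K F c
      have hpos : 0 < (placeFin K F B P).ord (RRgen.xF K F - algebraMap K F c) := by
        have h1 : algebraMap B F (algebraMap K[X] B (X - C c)) =
            RRgen.xF K F - algebraMap K F c := Alg.algebraMap_X_sub_C K F B c
        rw [← valuation_lt_one_iff_ord_fin K F B P hc0, ← h1,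
          HeightOneSpectrum.valuation_lt_one_iff_mem]
        exact hc
      have hW := hfin _ c hpos
      have hv := H' (placeFin K F B P)
      show P.valuation F (h * (RRgen.xF K F - algebraMap K F c)) < 1
      rw [valuation_lt_one_iff_ord_fin K F B P (mul_ne_zero hh hc0), Place.ord_mul _ hh hc0]
      omega
    · have hneg : (placeInf K F Binf P).ord (RRgen.xF K F) < 0 := by
        by_contra hcon
        exact xF_not_mem_placeInf K F Binf P (FF.mem_of_ord_nonneg _ (not_lt.mp hcon))
      have hW := hinf _ hneg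
      have hv := H' (placeInf K F Binf P)
      show P.valuation F (h * RRgen.xF K F) < 1
      rw [valuation_lt_one_iff_ord_inf K F Binf P (mul_ne_zero hh hx0), Place.ord_mul _ hh hx0]
      omega
  · rintro ⟨H1, H2⟩ v
    right
    rcases exists_placeFin_or_placeInf K F B Binf v with ⟨P, rfl⟩ | ⟨P, rfl⟩
    · obtain ⟨c, hc, hpos⟩ := exists_ord_pos_placeFin K F B P
      have hc0 := xF_sub_ne_zero K F c
      have hW := hfin _ c hpos
      have h1 : P.valuation F (h * (RRgen.xF K F - algebraMap K F c)) < 1 := H1 P c hc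
      rw [valuation_lt_one_iff_ord_fin K F B P (mul_ne_zero hh hc0), Place.ord_mul _ hh hc0] at h1
      omega
    · have hneg : (placeInf K F Binf P).ord (RRgen.xF K F) < 0 := by
        by_contra hcon
        exact xF_not_mem_placeInf K F Binf P (FF.mem_of_ord_nonneg _ (not_lt.mp hcon))
      have hW := hinf _ hneg
      have h1 : P.valuation F (h * RRgen.xF K F) < 1 := H2 P
      rw [valuation_lt_one_iff_ord_inf K F Binf P (mul_ne_zero hh hx0), Place.ord_mul _ hh hx0] at h1
      omega

/-- `ℓ(W) = g` (the genus of `RRgen`). -/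
theorem finrank_riemannRochSpace_canonical (W : Divisor K F)
    (hfin : ∀ (P : Place K F) (c : K), 0 < P.ord (RRgen.xF K F - algebraMap K F c) →
      W P = P.ord (RRgen.xF K F - algebraMap K F c) - 1)
    (hinf : ∀ P : Place K F, P.ord (RRgen.xF K F) < 0 → W P = P.ord (RRgen.xF K F) - 1) :
    finrank K (riemannRochSpace W) = RRgen.genus K F B Binf := by
  rw [riemannRochSpace_eq_Omega_zero K F B Binf W hfin hinf]
  rfl

end Charts

section Main

variable (K : Type*) [Field K] [IsAlgClosed K] [CharZero K] {F : Type*} [Field F] [Algebra K F]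
  {x : F} (hx : Transcendental K x) [FiniteDimensional K⟮x⟯ F] [Algebra.IsSeparable K⟮x⟯ F]

/-- the fibre of `x` over `a : K` -/
def fib (a : K) : Finset (Place K F) := (FF.finite_fibre x hx a).toFinset

/-- the poles of `x` -/
def poles : Finset (Place K F) := (FF.finite_poles x hx).toFinset

/-- the finite branch values of `x` -/
def branch : Finset K := (S27lib.U.finite_branchValues K hx).toFinset

theorem mem_fib {a : K} {P : Place K F} : P ∈ fib K hx a ↔ 0 < P.ord (x - algebraMap K F a) := by
  rw [fib, Set.Finite.mem_toFinset]; rfl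

theorem mem_poles {P : Place K F} : P ∈ poles K hx ↔ P.ord x < 0 := by
  rw [poles, Set.Finite.mem_toFinset]; rfl

theorem mem_branch {a : K} :
    a ∈ branch K hx ↔ ∃ P : Place K F, 1 < P.ord (x - algebraMap K F a) := by
  rw [branch, Set.Finite.mem_toFinset]; rfl

/-- **the divisor of the differential `dx`** -/
def canDiv : Divisor K F :=
  (∑ a ∈ branch K hx, ∑ P ∈ fib K hx a, Finsupp.single P (P.ord (x - algebraMap K F a) - 1))
    + ∑ P ∈ poles K hx, Finsupp.single P (P.ord x - 1)

include hx in
theorem sub_ne_zero_of_transcendental (a : K) : x - algebraMap K F a ≠ 0 := by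
  intro h
  apply hx
  rw [sub_eq_zero.1 h]
  exact isAlgebraic_algebraMap _

omit [IsAlgClosed K] [CharZero K] in
/-- a zero of `x - c` is not a pole of `x` -/
theorem ord_nonneg_of_ord_sub_pos {P : Place K F} {c : K}
    (h : 0 < P.ord (x - algebraMap K F c)) : 0 ≤ P.ord x := by
  by_contra hneg
  rw [not_le] at hneg
  rw [Tame.ord_sub_const_of_neg P c hneg] at h
  omega

omit [IsAlgClosed K] [CharZero K] in
/-- the value of `x` at a place is unique -/
theorem eq_of_ord_sub_pos {P : Place K F} {a c : K}
    (ha : 0 < P.ord (x - algebraMap K F a)) (hc : 0 < P.ord (x - algebraMap K F c)) : a = c := by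
  by_contra hne
  have hne' : c - a ≠ 0 := sub_ne_zero.mpr (Ne.symm hne)
  have h0 : P.ord (algebraMap K F (c - a)) = 0 := Tame.ord_const P hne'
  have e : algebraMap K F (c - a) = (x - algebraMap K F a) - (x - algebraMap K F c) := by
    rw [map_sub]; ring
  have hmem1 := FF.mem_of_ord_nonneg P ha.le
  have hmem2 := FF.mem_of_ord_nonneg P hc.le
  set u : P.toValuationSubring := ⟨_, hmem1⟩ with hu
  set w : P.toValuationSubring := ⟨_, hmem2⟩ with hw
  have hm1 : u ∈ IsLocalRing.maximalIdeal P.toValuationSubring :=
    (FF.mem_maximalIdeal_iff P u).mpr (Or.inr ha)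
  have hm2 : w ∈ IsLocalRing.maximalIdeal P.toValuationSubring :=
    (FF.mem_maximalIdeal_iff P w).mpr (Or.inr hc)
  have hm : u - w ∈ IsLocalRing.maximalIdeal P.toValuationSubring := Ideal.sub_mem _ hm1 hm2
  have huw : ((u - w : P.toValuationSubring) : F) = algebraMap K F (c - a) := by
    rw [e]; rfl
  rcases (FF.mem_maximalIdeal_iff P _).mp hm with h | h
  · have h' := congrArg Subtype.val h
    rw [huw] at h'
    exact hne' ((map_eq_zero _).mp h')
  · rw [huw] at h
    omega

/-- coefficient of `div(dx)` at a place where `x` takes the finite value `c` -/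
theorem canDiv_apply_of_pos {P : Place K F} {c : K} (h : 0 < P.ord (x - algebraMap K F c)) :
    canDiv K hx P = P.ord (x - algebraMap K F c) - 1 := by
  classical
  have hpole : P ∉ poles K hx := by
    rw [mem_poles, not_lt]
    exact ord_nonneg_of_ord_sub_pos K h
  have h2 : (∑ Q ∈ poles K hx, Finsupp.single Q (Q.ord x - 1)) P = 0 := by
    rw [Finsupp.finsetSum_apply]
    refine Finset.sum_eq_zero fun Q hQ => ?_
    rw [Finsupp.single_apply, if_neg]
    rintro rfl
    exact hpole hQ
  have h1 : ∀ a : K, (∑ Q ∈ fib K hx a, Finsupp.single Q (Q.ord (x - algebraMap K F a) - 1)) P =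
      if a = c then P.ord (x - algebraMap K F c) - 1 else 0 := by
    intro a
    rw [Finsupp.finsetSum_apply]
    split_ifs with hac
    · subst hac
      rw [Finset.sum_eq_single P]
      · rw [Finsupp.single_eq_same]
      · intro Q _ hQP
        rw [Finsupp.single_apply, if_neg hQP]
      · intro hP
        exact absurd ((mem_fib K hx).mpr h) hP
    · refine Finset.sum_eq_zero fun Q hQ => ?_
      rw [Finsupp.single_apply, if_neg]
      rintro rfl
      exact hac (eq_of_ord_sub_pos K ((mem_fib K hx).mp hQ) h)
  rw [canDiv, Finsupp.add_apply, h2, add_zero, Finsupp.finsetSum_apply]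
  simp only [h1]
  rw [Finset.sum_ite_eq']
  split_ifs with hc
  · rfl
  · -- `c` is not a branch value: `e = 1`
    have : ¬ 1 < P.ord (x - algebraMap K F c) := fun h' => hc ((mem_branch K hx).mpr ⟨P, h'⟩)
    omega

/-- coefficient of `div(dx)` at a pole of `x` -/
theorem canDiv_apply_of_neg {P : Place K F} (h : P.ord x < 0) :
    canDiv K hx P = P.ord x - 1 := by
  classical
  have h1 : (∑ a ∈ branch K hx, ∑ Q ∈ fib K hx a,
      Finsupp.single Q (Q.ord (x - algebraMap K F a) - 1)) P = 0 := by
    rw [Finsupp.finsetSum_apply]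
    refine Finset.sum_eq_zero fun a _ => ?_
    rw [Finsupp.finsetSum_apply]
    refine Finset.sum_eq_zero fun Q hQ => ?_
    rw [Finsupp.single_apply, if_neg]
    rintro rfl
    have := ord_nonneg_of_ord_sub_pos K ((mem_fib K hx).mp hQ)
    omega
  rw [canDiv, Finsupp.add_apply, h1, zero_add, Finsupp.finsetSum_apply,
    Finset.sum_eq_single P]
  · rw [Finsupp.single_eq_same]
  · intro Q _ hQP
    rw [Finsupp.single_apply, if_neg hQP]
  · intro hP
    exact absurd ((mem_poles K hx).mpr h) hP

/-- **`deg div(dx) = 2 g - 2`** (Riemann–Hurwitz). -/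
theorem degree_canDiv : Divisor.degree (canDiv K hx) = 2 * (genusOf K hx : ℤ) - 2 := by
  classical
  have hS : ∀ a : K, a ∉ branch K hx → ∀ P : Place K F,
      0 < P.ord (x - algebraMap K F a) → P.ord (x - algebraMap K F a) = 1 := by
    intro a ha P hP
    have : ¬ 1 < P.ord (x - algebraMap K F a) := fun h' => ha ((mem_branch K hx).mpr ⟨P, h'⟩)
    omega
  rw [rh_eq_genusOf K hx (branch K hx) hS, canDiv, map_add, map_sum, map_sum]
  have e1 : ∀ a ∈ branch K hx,
      Divisor.degree (∑ P ∈ fib K hx a, Finsupp.single P (P.ord (x - algebraMap K F a) - 1)) =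
        (finrank K⟮x⟯ F : ℤ) - Nat.card (Tame.zerosOf (K := K) (x - algebraMap K F a)) := by
    intro a _
    rw [map_sum, S27lib.U.card_zerosOf_eq_card K hx a (fib K hx a) fun v => mem_fib K hx,
      ← FF.sum_fibre_ord_sub_one x hx a (fib K hx a) fun v => mem_fib K hx]
    refine Finset.sum_congr rfl fun P _ => ?_
    rw [Divisor.degree_single, FF.deg_eq_one x P, Nat.cast_one, mul_one]
  have e2 : ∑ P ∈ poles K hx, Divisor.degree (Finsupp.single P (P.ord x - 1)) =
      -(finrank K⟮x⟯ F : ℤ) - Nat.card (Tame.polesOf (K := K) x) := by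
    rw [S27lib.U.card_polesOf_eq_card K (poles K hx) fun v => mem_poles K hx,
      ← FF.sum_poles_neg_ord_sub_one x hx (poles K hx) fun v => mem_poles K hx]
    refine Finset.sum_congr rfl fun P _ => ?_
    rw [Divisor.degree_single, FF.deg_eq_one x P, Nat.cast_one, mul_one]
  rw [Finset.sum_congr rfl e1, e2]
  ring

attribute [local instance] isScalarTower_const_poly isScalarTower_ainf_ratFunc
  isScalarTower_const_ainf algebraBInf
  isScalarTower_const_BFin isScalarTower_const_BInf isTorsionFree_BFin
  isTorsionFree_BInf isFractionRing_BFin isDedekindDomain_BFin finite_BFin isFractionRing_BInf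
  isDedekindDomain_BInf finite_BInf in
/-- **`ℓ(div(dx)) = g`**: the holomorphic differentials `h dx` are the `h ∈ L(div(dx))`. -/
theorem finrank_riemannRochSpace_canDiv :
    finrank K (riemannRochSpace (canDiv K hx)) = genusOf K hx := by
  letI := polyAlgebra K x
  letI := ratFuncAlgebra K hx
  haveI := isScalarTower_poly_ratFunc K hx
  haveI := isScalarTower_const_ratFunc K hx
  haveI := finiteDimensional_ratFunc K hx
  haveI := isSeparable_ratFunc K hx
  have hxF : RRgen.xF K F = x := algebraMap_ratFuncAlgebra_X K hx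
  exact finrank_riemannRochSpace_canonical K F (BFin K F) (BInf K F) (canDiv K hx)
    (by rw [hxF]; exact fun P c h => canDiv_apply_of_pos K hx h)
    (by rw [hxF]; exact fun P h => canDiv_apply_of_neg K hx h)

include hx in
/-- **(CAN-DIFF)**: a canonical divisor on a curve of genus `g` (`deg W = 2 g - 2`, `ℓ(W) = g`),
with its coefficients. -/
theorem exists_canonical_apply {g : ℕ} (hF : IsCurveOfGenus K F g) :
    ∃ W : Divisor K F, Divisor.degree W = 2 * (g : ℤ) - 2 ∧
      finrank K (riemannRochSpace W) = g ∧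
      (∀ (P : Place K F) (c : K), 0 < P.ord (x - algebraMap K F c) →
        W P = P.ord (x - algebraMap K F c) - 1) ∧
      (∀ P : Place K F, P.ord x < 0 → W P = P.ord x - 1) := by
  have hg : genusOf K hx = g := genusOf_eq_of_isCurveOfGenus K hx hF
  refine ⟨canDiv K hx, ?_, ?_, fun P c h => canDiv_apply_of_pos K hx h,
    fun P h => canDiv_apply_of_neg K hx h⟩
  · rw [degree_canDiv, hg]
  · rw [finrank_riemannRochSpace_canDiv, hg]

end Main

section Final

variable (K : Type*) [Field K] [IsAlgClosed K] [CharZero K] {F : Type*} [Field F] [Algebra K F]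

/-- **(CAN-DIFF)**, the form consumed by (P4): on a curve of genus `g` over an algebraically closed
field of characteristic `0` (with a separating variable `x`, `[F : K(x)] < ∞`) there is a divisor
`W` with `deg W = 2 g - 2` and `ℓ(W) = g`. -/
theorem exists_canonical {g : ℕ} (hF : IsCurveOfGenus K F g) {x : F} (hx : Transcendental K x)
    [FiniteDimensional K⟮x⟯ F] :
    ∃ W : Divisor K F, Divisor.degree W = 2 * (g : ℤ) - 2 ∧
      finrank K (riemannRochSpace W) = g := by
  haveI : Algebra.IsSeparable K⟮x⟯ F := Algebra.IsAlgebraic.isSeparable_of_perfectField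
  obtain ⟨W, h1, h2, -, -⟩ := exists_canonical_apply K hx hF
  exact ⟨W, h1, h2⟩

/-- the inequality form. -/
theorem exists_canonical_le {g : ℕ} (hF : IsCurveOfGenus K F g) {x : F}
    (hx : Transcendental K x) [FiniteDimensional K⟮x⟯ F] :
    ∃ W : Divisor K F, Divisor.degree W = 2 * (g : ℤ) - 2 ∧
      g ≤ finrank K (riemannRochSpace W) := by
  obtain ⟨W, h1, h2⟩ := exists_canonical K hF hx
  exact ⟨W, h1, h2.ge⟩

end Final

end Fermat.Agent.S17lib.CanDiff
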