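/-
S17lib / CanDiff / NonSpecial  (helper9) — Project G, block DEG, seam (P4).

Generic (any `IsCurveOfGenus K F g`):
* `finrank_add_single_le`, `finrank_add_le` : adding an effective divisor of degree `n` raises
  `ℓ` by at most `n`;
* `riemannRochSpace_sub_eq_bot` (NONSPECIAL): `deg W = 2g - 2`, `ℓ(W) ≥ g`, `E ≥ 0` of degree `g`
  with `ℓ(E) = 1`  ⇒  `L(W - E) = 0`  (no duality needed);
* `det_ne_zero` : for `g` independent elements `h i ∈ L(W)` and `g` distinct places `Q j` with
  `ℓ(∑ Q j) = 1`, `W (Q j) ≥ 0`, the matrix of values `(h i)(Q j)` is invertible.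
-/
import Mathlib
import Fermat.Agent.S18lib.Cech.CurveBasics

set_option autoImplicit false

noncomputable section

namespace Fermat.Agent.S17lib.CanDiff

open Module AlgebraicCurve
open Fermat.Agent.ProgramR Fermat.Agent.S18lib

variable {K F : Type*} [Field K] [Field F] [Algebra K F] {g : ℕ}

/-- adding a point raises `ℓ` by at most one -/
theorem finrank_add_single_le (hF : IsCurveOfGenus K F g) (E : Divisor K F) (P : Place K F) :
    finrank K (riemannRochSpace (E + Finsupp.single P 1)) ≤
      finrank K (riemannRochSpace E) + 1 := by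
  have := hF.finiteDimensional E
  have := hF.finiteDimensional (E + Finsupp.single P 1)
  have hle : riemannRochSpace E ≤ riemannRochSpace (E + Finsupp.single P 1) := by
    refine Cech.rr_mono fun v => ?_
    rw [Finsupp.add_apply]
    have : (0 : ℤ) ≤ (Finsupp.single P (1 : ℤ)) v := by
      classical
      rw [Finsupp.single_apply]
      split_ifs <;> norm_num
    omega
  by_cases heq : riemannRochSpace (E + Finsupp.single P 1) ≤ riemannRochSpace E
  · exact (Submodule.finrank_mono heq).trans (Nat.le_succ _)
  · obtain ⟨y, hy, hyE⟩ := SetLike.not_le_iff_exists.mp heq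
    have hsup : riemannRochSpace (E + Finsupp.single P 1) ≤
        riemannRochSpace E ⊔ Submodule.span K {y} := by
      intro x hx
      obtain ⟨c, hc⟩ := Cech.exists_sub_smul_mem_rr hF E P hx hy hyE
      have : x = (x - c • y) + c • y := by ring
      rw [this]
      exact Submodule.add_mem_sup hc (Submodule.smul_mem _ c (Submodule.mem_span_singleton_self y))
    calc finrank K (riemannRochSpace (E + Finsupp.single P 1))
        ≤ finrank K ↥(riemannRochSpace E ⊔ Submodule.span K {y}) := Submodule.finrank_mono hsup
      _ ≤ finrank K (riemannRochSpace E) + finrank K (Submodule.span K {y}) :=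
          Submodule.finrank_add_le_finrank_add_finrank _ _
      _ ≤ finrank K (riemannRochSpace E) + 1 := by
          have := finrank_span_singleton (K := K) (fun h0 : y = 0 => hyE (h0 ▸ Submodule.zero_mem _))
          omega

/-- adding an effective divisor of degree `n` raises `ℓ` by at most `n` -/
theorem finrank_add_le (hF : IsCurveOfGenus K F g) :
    ∀ (n : ℕ) (A : Divisor K F), (∀ v, 0 ≤ A v) → Divisor.degree A = n → ∀ E : Divisor K F,
      finrank K (riemannRochSpace (E + A)) ≤ finrank K (riemannRochSpace E) + n := by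
  classical
  intro n
  induction n with
  | zero =>
    intro A hA hdeg E
    have hA0 : A = 0 := Cech.eq_zero_of_nonneg_of_degree_eq_zero
      (fun v => by rw [hF.deg_eq_one v]; exact Nat.one_pos) hA (by simpa using hdeg)
    rw [hA0, add_zero, add_zero]
  | succ n ih =>
    intro A hA hdeg E
    have hne : A ≠ 0 := by
      rintro rfl
      rw [map_zero] at hdeg
      have : (0 : ℤ) = (n : ℤ) + 1 := by exact_mod_cast hdeg
      omega
    obtain ⟨P, hP⟩ : ∃ P, A P ≠ 0 := by
      by_contra hcon
      push Not at hcon
      exact hne (Finsupp.ext hcon)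
    have hPpos : 1 ≤ A P := by
      have := hA P
      omega
    set A' : Divisor K F := A - Finsupp.single P 1 with hA'
    have hA'nn : ∀ v, 0 ≤ A' v := by
      intro v
      rw [hA', Finsupp.sub_apply, Finsupp.single_apply]
      split_ifs with h
      · subst h; omega
      · have := hA v; omega
    have hA'deg : Divisor.degree A' = n := by
      rw [hA', map_sub, hdeg, Divisor.degree_single, hF.deg_eq_one P]
      push_cast
      ring
    have e : E + A = (E + A') + Finsupp.single P 1 := by
      rw [hA']; abel
    rw [e]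
    have h1 := finrank_add_single_le hF (E + A') P
    have h2 := ih A' hA'nn hA'deg E
    omega

/-- **(NONSPECIAL)**: if `deg W = 2g - 2`, `ℓ(W) ≥ g`, and `E` has degree `g` and `ℓ(E) = 1`,
then `L(W - E) = 0`. -/
theorem riemannRochSpace_sub_eq_bot (hF : IsCurveOfGenus K F g) {W E : Divisor K F}
    (hW : Divisor.degree W = 2 * (g : ℤ) - 2) (hlW : g ≤ finrank K (riemannRochSpace W))
    (hEdeg : Divisor.degree E = g)
    (hlE : finrank K (riemannRochSpace E) = 1) :
    riemannRochSpace (W - E) = ⊥ := by
  rw [Submodule.eq_bot_iff]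
  intro f hf
  by_contra hf0
  obtain ⟨Df, hDf, hDfdeg⟩ := hF.hasPrincipalDivisors.exists_divisor f hf0
  rw [Cech.mem_rr_of_ne hf0] at hf
  set W₁ : Divisor K F := W - E + Df with hW₁
  have hW₁nn : ∀ v, 0 ≤ W₁ v := by
    intro v
    have := hf v
    rw [Finsupp.sub_apply] at this
    rw [hW₁, Finsupp.add_apply, Finsupp.sub_apply, hDf v]
    omega
  have hW₁deg : Divisor.degree W₁ = (g : ℤ) - 2 := by
    rw [hW₁, map_add, map_sub, hW, hEdeg, hDfdeg]
    ring
  have hdeg0 := Cech.degree_nonneg_of_nonneg hW₁nn
  obtain ⟨n, hn⟩ : ∃ n : ℕ, (n : ℤ) = (g : ℤ) - 2 := ⟨g - 2, by omega⟩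
  have h1 := finrank_add_le hF n W₁ hW₁nn (by rw [hW₁deg, hn]) E
  -- `L(W) ↪ L(E + W₁)`, `h ↦ h / f`
  have := hF.finiteDimensional (E + W₁)
  have hmem : ∀ h ∈ riemannRochSpace W, h * f⁻¹ ∈ riemannRochSpace (E + W₁) := by
    intro h hh
    rcases eq_or_ne h 0 with rfl | hh0
    · rw [zero_mul]; exact Submodule.zero_mem _
    rw [Cech.mem_rr_of_ne hh0] at hh
    rw [Cech.mem_rr_of_ne (mul_ne_zero hh0 (inv_ne_zero hf0))]
    intro v
    rw [v.ord_mul hh0 (inv_ne_zero hf0), v.ord_inv, hW₁, Finsupp.add_apply, Finsupp.add_apply,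
      Finsupp.sub_apply, hDf v]
    have := hh v
    omega
  let φ : riemannRochSpace W →ₗ[K] riemannRochSpace (E + W₁) :=
    LinearMap.codRestrict _ ((LinearMap.mulRight K f⁻¹).domRestrict (riemannRochSpace W))
      (fun h => hmem h h.2)
  have hφ : Function.Injective φ := by
    intro h h' hhh'
    have h1 : (h : F) * f⁻¹ = (h' : F) * f⁻¹ := congrArg Subtype.val hhh'
    exact Subtype.ext (mul_right_cancel₀ (inv_ne_zero hf0) h1)
  have h2 := LinearMap.finrank_le_finrank_of_injective hφ
  omega

/-- finite ultrametric inequality -/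
theorem ord_sum_ge' (v : Place K F) {ι : Type*} (s : Finset ι) (a : ι → F) {n : ℤ}
    (h : ∀ i ∈ s, a i = 0 ∨ n ≤ v.ord (a i)) : ∑ i ∈ s, a i = 0 ∨ n ≤ v.ord (∑ i ∈ s, a i) := by
  classical
  induction s using Finset.induction_on with
  | empty => left; simp
  | insert i s hi ih =>
    rw [Finset.sum_insert hi]
    exact Cech.ord_add_ge v (h i (Finset.mem_insert_self i s))
      (ih fun j hj => h j (Finset.mem_insert_of_mem hj))

/-- the reduced divisor of `n` distinct places, at one of them -/
theorem sum_single_apply_self {n : ℕ} (Q : Fin n → Place K F) (hQ : Function.Injective Q)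
    (j : Fin n) : (∑ j, Finsupp.single (Q j) (1 : ℤ) : Divisor K F) (Q j) = 1 := by
  classical
  rw [Finsupp.finsetSum_apply, Finset.sum_eq_single j]
  · rw [Finsupp.single_eq_same]
  · intro j' _ hj'
    rw [Finsupp.single_apply, if_neg fun h => hj' (hQ h)]
  · intro hj; exact absurd (Finset.mem_univ j) hj

/-- the reduced divisor of `n` places, away from them -/
theorem sum_single_apply_of_ne {n : ℕ} (Q : Fin n → Place K F) (v : Place K F)
    (hv : ∀ j, Q j ≠ v) : (∑ j, Finsupp.single (Q j) (1 : ℤ) : Divisor K F) v = 0 := by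
  classical
  rw [Finsupp.finsetSum_apply]
  refine Finset.sum_eq_zero fun j _ => ?_
  rw [Finsupp.single_apply, if_neg (hv j)]

/-- **the matrix of values is invertible**: `h i` independent in `L(W)`, `deg W = 2g - 2`,
`Q j` distinct places with `ℓ(∑ Q j) = 1` and `W (Q j) ≥ 0`, `M i j` the value of `h i` at `Q j`. -/
theorem det_ne_zero (hF : IsCurveOfGenus K F g) {W : Divisor K F}
    (hW : Divisor.degree W = 2 * (g : ℤ) - 2) (h : Fin g → F)
    (hh : ∀ i, h i ∈ riemannRochSpace W) (hli : LinearIndependent K h)
    (Q : Fin g → Place K F) (hQ : Function.Injective Q) (hWQ : ∀ j, 0 ≤ W (Q j))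
    (hlE : finrank K (riemannRochSpace (∑ j, Finsupp.single (Q j) (1 : ℤ) : Divisor K F)) = 1)
    (M : Matrix (Fin g) (Fin g) K)
    (hM : ∀ i j, h i = algebraMap K F (M i j) ∨ 0 < (Q j).ord (h i - algebraMap K F (M i j))) :
    M.det ≠ 0 := by
  classical
  intro hdet
  obtain ⟨c, hc0, hc⟩ := Matrix.exists_vecMul_eq_zero_iff.mpr hdet
  set E : Divisor K F := ∑ j, Finsupp.single (Q j) (1 : ℤ) with hE
  have hEdeg : Divisor.degree E = g := by
    rw [hE, map_sum]
    simp only [Divisor.degree_single, hF.deg_eq_one, Nat.cast_one, mul_one, Finset.sum_const,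
      Finset.card_univ, Fintype.card_fin, nsmul_eq_mul]
  -- `ℓ(W) ≥ g`
  have := hF.finiteDimensional W
  have hlW : g ≤ finrank K (riemannRochSpace W) := by
    let h' : Fin g → riemannRochSpace W := fun i => ⟨h i, hh i⟩
    have hli' : LinearIndependent K h' := by
      apply LinearIndependent.of_comp (riemannRochSpace W).subtype
      exact hli
    simpa using hli'.fintype_card_le_finrank
  have hbot := riemannRochSpace_sub_eq_bot hF hW hlW hEdeg hlE
  -- the combination `f = ∑ c i • h i`
  set f : F := ∑ i, c i • h i with hf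
  have hfW : f ∈ riemannRochSpace W :=
    Submodule.sum_mem _ fun i _ => Submodule.smul_mem _ _ (hh i)
  have hf0 : f ≠ 0 := by
    intro h0
    apply hc0
    funext i
    exact (Fintype.linearIndependent_iff.mp hli) c h0 i
  have hval : ∀ j, 0 < (Q j).ord f := by
    intro j
    have hcj : ∑ i, c i * M i j = 0 := by
      have := congrFun hc j
      simpa [Matrix.vecMul, dotProduct] using this
    have e : f = ∑ i, c i • (h i - algebraMap K F (M i j)) := by
      rw [hf]
      simp only [smul_sub, Finset.sum_sub_distrib]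
      have : ∑ i, c i • algebraMap K F (M i j) = algebraMap K F (∑ i, c i * M i j) := by
        rw [map_sum]
        refine Finset.sum_congr rfl fun i _ => ?_
        rw [Algebra.smul_def, map_mul]
      rw [this, hcj, map_zero, sub_zero]
    have hsum := ord_sum_ge' (Q j) Finset.univ
      (fun i => c i • (h i - algebraMap K F (M i j))) (n := 1) (fun i _ => by
        rcases hM i j with h1 | h1
        · left; rw [h1, sub_self, smul_zero]
        · by_cases hci : c i = 0
          · left; rw [hci, zero_smul]
          · right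
            have hne : h i - algebraMap K F (M i j) ≠ 0 := by
              intro h0; rw [h0, Place.ord_zero] at h1; omega
            rw [Algebra.smul_def, (Q j).ord_mul ((map_ne_zero _).mpr hci) hne,
              Cech.ord_const]
            omega)
    rw [← e] at hsum
    rcases hsum with h0 | h1
    · exact absurd h0 hf0
    · omega
  have hmem : f ∈ riemannRochSpace (W - E) := by
    rw [Cech.mem_rr_of_ne hf0]
    intro v
    have hfv := (Cech.mem_rr_of_ne hf0).mp hfW v
    rw [Finsupp.sub_apply, hE]
    by_cases hv : ∃ j, Q j = v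
    · obtain ⟨j, rfl⟩ := hv
      rw [sum_single_apply_self Q hQ j]
      have := hval j
      have := hWQ j
      omega
    · push Not at hv
      rw [sum_single_apply_of_ne Q v hv]
      omega
  rw [hbot, Submodule.mem_bot] at hmem
  exact hf0 hmem

end Fermat.Agent.S17lib.CanDiff
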