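/-
S17lib / CanDiff / Transport  (helper9) — Project G, block DEG, seam (S2b) of (P4), generic part.

Constant extension `ι : Fk → FΩ` of function fields (`Fk / k`, `FΩ / Ω`), given abstractly by
* `cst : Place k Fk → Place Ω FΩ` (the constant places), injective, `ord_{cst p} (ι f) = ord_p f`,
* `ord_Q (ι f) = 0` for `f ≠ 0` at every non-constant place `Q`,
* `k`-independent families stay `Ω`-independent under `ι`.
Then the push-forward `ι_* W = mapDomain cst W` of a divisor satisfies `deg ι_* W = deg W`,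
`ι (L(W)) ⊆ L(ι_* W)`, and for a canonical `W` (`deg W = 2g - 2`, `g` independent `f i ∈ L(W)`)
and `g` distinct non-constant places `Q j` with `ℓ(∑ Q j) = 1`, the matrix of the values
`(ι (f i))(Q j)` is invertible.
-/
import Mathlib
import Fermat.Agent.S17lib.CanDiff.NonSpecial

set_option autoImplicit false

noncomputable section

namespace Fermat.Agent.S17lib.CanDiff

open Module AlgebraicCurve
open Fermat.Agent.ProgramR Fermat.Agent.S18lib

variable {k Ω Fk FΩ : Type*} [Field k] [Field Ω] [Field Fk] [Field FΩ] [Algebra k Fk]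
  [Algebra Ω FΩ] {g : ℕ}

/-- the constant push-forward of a divisor -/
def pushDiv (cst : Place k Fk → Place Ω FΩ) (W : Divisor k Fk) : Divisor Ω FΩ :=
  Finsupp.mapDomain cst W

theorem pushDiv_apply_cst {cst : Place k Fk → Place Ω FΩ} (hcst : Function.Injective cst)
    (W : Divisor k Fk) (p : Place k Fk) : pushDiv cst W (cst p) = W p :=
  Finsupp.mapDomain_apply hcst W p

theorem pushDiv_apply_of_notMem {cst : Place k Fk → Place Ω FΩ} (W : Divisor k Fk)
    {Q : Place Ω FΩ} (hQ : Q ∉ Set.range cst) : pushDiv cst W Q = 0 :=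
  Finsupp.mapDomain_of_notMem_range W Q hQ

/-- the push-forward preserves the degree (all places of degree one). -/
theorem degree_pushDiv (hFk : IsCurveOfGenus k Fk g) {g' : ℕ} (hFΩ : IsCurveOfGenus Ω FΩ g')
    (cst : Place k Fk → Place Ω FΩ) (W : Divisor k Fk) :
    Divisor.degree (pushDiv cst W) = Divisor.degree W := by
  have h : (Divisor.degree : Divisor Ω FΩ →+ ℤ).comp (Finsupp.mapDomain.addMonoidHom cst) =
      (Divisor.degree : Divisor k Fk →+ ℤ) := by
    refine Finsupp.addHom_ext fun p n => ?_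
    rw [AddMonoidHom.comp_apply, Finsupp.mapDomain.addMonoidHom_apply, Finsupp.mapDomain_single,
      Divisor.degree_single, Divisor.degree_single, hFk.deg_eq_one, hFΩ.deg_eq_one]
  exact DFunLike.congr_fun h W

/-- `ι (L(W)) ⊆ L(ι_* W)`. -/
theorem map_mem_riemannRochSpace_pushDiv (ι : Fk →+* FΩ) {cst : Place k Fk → Place Ω FΩ}
    (hcst : Function.Injective cst) (hord : ∀ p f, (cst p).ord (ι f) = p.ord f)
    (hgen : ∀ Q : Place Ω FΩ, Q ∉ Set.range cst → ∀ f : Fk, f ≠ 0 → Q.ord (ι f) = 0)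
    {W : Divisor k Fk} {f : Fk} (hf : f ∈ riemannRochSpace W) :
    ι f ∈ riemannRochSpace (pushDiv cst W) := by
  rcases eq_or_ne f 0 with rfl | hf0
  · rw [map_zero]; exact Submodule.zero_mem _
  have hιf0 : ι f ≠ 0 := (map_ne_zero ι).mpr hf0
  rw [Cech.mem_rr_of_ne hf0] at hf
  rw [Cech.mem_rr_of_ne hιf0]
  intro Q
  by_cases hQ : Q ∈ Set.range cst
  · obtain ⟨p, rfl⟩ := hQ
    rw [pushDiv_apply_cst hcst, hord]
    exact hf p
  · rw [pushDiv_apply_of_notMem W hQ, hgen Q hQ f hf0]
    simp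

/-- **(S2), generic form**: the matrix of values of a canonical family at `g` distinct
non-constant places `Q j` with `ℓ(∑ Q j) = 1` is invertible. -/
theorem det_ne_zero_of_constExt (hFk : IsCurveOfGenus k Fk g) (hFΩ : IsCurveOfGenus Ω FΩ g)
    (ι : Fk →+* FΩ) {cst : Place k Fk → Place Ω FΩ}
    (hcst : Function.Injective cst) (hord : ∀ p f, (cst p).ord (ι f) = p.ord f)
    (hgen : ∀ Q : Place Ω FΩ, Q ∉ Set.range cst → ∀ f : Fk, f ≠ 0 → Q.ord (ι f) = 0)
    {W : Divisor k Fk} (hW : Divisor.degree W = 2 * (g : ℤ) - 2)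
    (f : Fin g → Fk) (hf : ∀ i, f i ∈ riemannRochSpace W)
    (hli : LinearIndependent Ω fun i => ι (f i))
    (Q : Fin g → Place Ω FΩ) (hQ : Function.Injective Q) (hQc : ∀ j, Q j ∉ Set.range cst)
    (hlE : finrank Ω (riemannRochSpace (∑ j, Finsupp.single (Q j) (1 : ℤ) : Divisor Ω FΩ)) = 1)
    (M : Matrix (Fin g) (Fin g) Ω)
    (hM : ∀ i j, ι (f i) = algebraMap Ω FΩ (M i j) ∨
      0 < (Q j).ord (ι (f i) - algebraMap Ω FΩ (M i j))) :
    M.det ≠ 0 :=
  det_ne_zero hFΩ (W := pushDiv cst W) (by rw [degree_pushDiv hFk hFΩ, hW]) (fun i => ι (f i))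
    (fun i => map_mem_riemannRochSpace_pushDiv ι hcst hord hgen (hf i)) hli Q hQ
    (fun j => by rw [pushDiv_apply_of_notMem W (hQc j)]) hlE M hM

end Fermat.Agent.S17lib.CanDiff
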